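import Mathlib

/-!
# Row LT, tower T7 -- REBASING a complete orthonormal sequence along finite blocks (helper44)

OFF-MAIN.  Mathlib only.  Complete proofs.

Abstract part (no automorphic vocabulary):

* `hasSum_of_block_sums44`: two nonnegative sequences with the same sums over the blocks of a
  partition of `ℕ` into finite blocks have the same sum;
* `col_orthonormal_of_row44`: a block matrix with orthonormal rows has orthonormal columns;
* `sum_normSq_unitary44`: `∑_{k ∈ b} ‖∑_{j ∈ b} conj (A k j) x_j‖² = ∑_{j ∈ b} ‖x_j‖²`.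
-/

set_option autoImplicit false

open scoped ComplexConjugate

noncomputable section

namespace Fermat.Agent.LT.T7.H44

/-! ## 1. Blocks -/

/-- A partition of `ℕ` into finite blocks: `B k` is the block of `k`. -/
structure IsBlocks44 (B : ℕ → Finset ℕ) : Prop where
  self : ∀ k, k ∈ B k
  eq : ∀ k, ∀ j ∈ B k, B j = B k

theorem IsBlocks44.mem_symm {B : ℕ → Finset ℕ} (hB : IsBlocks44 B) {k j : ℕ} (h : j ∈ B k) :
    k ∈ B j := by
  rw [hB.eq k j h]
  exact hB.self k

theorem IsBlocks44.disjoint {B : ℕ → Finset ℕ} (hB : IsBlocks44 B) {k k' : ℕ}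
    (h : B k ≠ B k') : Disjoint (B k) (B k') := by
  rw [Finset.disjoint_left]
  intro j hj hj'
  exact h ((hB.eq k j hj).symm.trans (hB.eq k' j hj'))

/-- The saturation of a finite set: the union of the blocks of its members. -/
def saturate44 (B : ℕ → Finset ℕ) (S : Finset ℕ) : Finset ℕ := (S.image B).biUnion id

theorem subset_saturate44 {B : ℕ → Finset ℕ} (hB : IsBlocks44 B) (S : Finset ℕ) :
    S ⊆ saturate44 B S := by
  intro k hk
  rw [saturate44, Finset.mem_biUnion]
  exact ⟨B k, Finset.mem_image_of_mem B hk, hB.self k⟩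

theorem sum_saturate44 {B : ℕ → Finset ℕ} (hB : IsBlocks44 B) (S : Finset ℕ) (a : ℕ → ℝ) :
    ∑ k ∈ saturate44 B S, a k = ∑ b ∈ S.image B, ∑ j ∈ b, a j := by
  rw [saturate44, Finset.sum_biUnion]
  · rfl
  · intro b hb b' hb' hne
    obtain ⟨k, -, rfl⟩ := Finset.mem_image.1 (Finset.mem_coe.1 hb)
    obtain ⟨k', -, rfl⟩ := Finset.mem_image.1 (Finset.mem_coe.1 hb')
    exact hB.disjoint hne

/-- **Two nonnegative sequences with the same block sums have the same sum.** -/
theorem hasSum_of_block_sums44 {B : ℕ → Finset ℕ} (hB : IsBlocks44 B) {a a' : ℕ → ℝ}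
    (ha : ∀ k, 0 ≤ a k) (ha' : ∀ k, 0 ≤ a' k)
    (hblock : ∀ k, ∑ j ∈ B k, a j = ∑ j ∈ B k, a' j) {s : ℝ} (h : HasSum a s) :
    HasSum a' s := by
  have hsat : ∀ S : Finset ℕ, ∑ k ∈ saturate44 B S, a' k = ∑ k ∈ saturate44 B S, a k := by
    intro S
    rw [sum_saturate44 hB, sum_saturate44 hB]
    refine Finset.sum_congr rfl fun b hb => ?_
    obtain ⟨k, -, rfl⟩ := Finset.mem_image.1 hb
    exact (hblock k).symm
  have hle : ∀ S : Finset ℕ, ∑ k ∈ S, a' k ≤ s := by
    intro S
    calc ∑ k ∈ S, a' k ≤ ∑ k ∈ saturate44 B S, a' k :=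
          Finset.sum_le_sum_of_subset_of_nonneg (subset_saturate44 hB S) fun k _ _ => ha' k
      _ = ∑ k ∈ saturate44 B S, a k := hsat S
      _ ≤ s := sum_le_hasSum _ (fun k _ => ha k) h
  have hsum' : Summable a' := summable_of_sum_le ha' hle
  have h1 : ∑' k, a' k ≤ s := hsum'.tsum_le_of_sum_le hle
  have hle2 : ∀ S : Finset ℕ, ∑ k ∈ S, a k ≤ ∑' k, a' k := by
    intro S
    calc ∑ k ∈ S, a k ≤ ∑ k ∈ saturate44 B S, a k :=
          Finset.sum_le_sum_of_subset_of_nonneg (subset_saturate44 hB S) fun k _ _ => ha k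
      _ = ∑ k ∈ saturate44 B S, a' k := (hsat S).symm
      _ ≤ ∑' k, a' k := hsum'.sum_le_tsum _ (fun k _ => ha' k)
  have h2 : s ≤ ∑' k, a' k := by
    rw [← h.tsum_eq]
    exact h.summable.tsum_le_of_sum_le hle2
  have : ∑' k, a' k = s := le_antisymm h1 h2
  rw [← this]
  exact hsum'.hasSum

/-! ## 2. Unitary blocks -/

/-- Orthonormal rows on a finite block give orthonormal columns. -/
theorem col_orthonormal_of_row44 (b : Finset ℕ) (A : ℕ → ℕ → ℂ)
    (hrow : ∀ k ∈ b, ∀ k' ∈ b, ∑ j ∈ b, A k j * conj (A k' j) = if k = k' then 1 else 0) :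
    ∀ j ∈ b, ∀ j' ∈ b, ∑ k ∈ b, conj (A k j) * A k j' = if j = j' then 1 else 0 := by
  classical
  let M : Matrix b b ℂ := Matrix.of fun k j => A k j
  have h1 : M * M.conjTranspose = 1 := by
    ext k k'
    rw [Matrix.mul_apply, Matrix.one_apply]
    have := hrow k k.2 k' k'.2
    rw [← Finset.sum_coe_sort] at this
    simp only [M, Matrix.conjTranspose_apply, Matrix.of_apply, Complex.star_def]
    rw [this]
    simp only [Subtype.ext_iff]
  have h2 : M.conjTranspose * M = 1 := mul_eq_one_comm.1 h1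
  intro j hj j' hj'
  have := congrFun (congrFun h2 ⟨j, hj⟩) ⟨j', hj'⟩
  rw [Matrix.mul_apply, Matrix.one_apply] at this
  simp only [M, Matrix.conjTranspose_apply, Matrix.of_apply, Complex.star_def,
    Subtype.mk.injEq] at this
  rw [← Finset.sum_coe_sort]
  exact this

/-- A unitary block preserves the sum of squares. -/
theorem sum_normSq_unitary44 (b : Finset ℕ) (A : ℕ → ℕ → ℂ)
    (hrow : ∀ k ∈ b, ∀ k' ∈ b, ∑ j ∈ b, A k j * conj (A k' j) = if k = k' then 1 else 0)
    (x : ℕ → ℂ) :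
    ∑ k ∈ b, ‖∑ j ∈ b, conj (A k j) * x j‖ ^ 2 = ∑ j ∈ b, ‖x j‖ ^ 2 := by
  classical
  have hcol := col_orthonormal_of_row44 b A hrow
  have hC : ((∑ k ∈ b, ‖∑ j ∈ b, conj (A k j) * x j‖ ^ 2 : ℝ) : ℂ)
      = ((∑ j ∈ b, ‖x j‖ ^ 2 : ℝ) : ℂ) := by
    push_cast
    have e1 : ∀ k, ((‖∑ j ∈ b, conj (A k j) * x j‖ : ℂ)) ^ 2
        = ∑ j ∈ b, ∑ j' ∈ b, (x j * conj (x j')) * (conj (A k j) * A k j') := by
      intro k
      rw [← Complex.mul_conj', map_sum, Finset.sum_mul_sum]
      refine Finset.sum_congr rfl fun j _ => Finset.sum_congr rfl fun j' _ => ?_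
      simp only [map_mul, Complex.conj_conj]
      ring
    simp only [e1]
    rw [Finset.sum_comm]
    have e2 : ∀ j ∈ b, ∑ k ∈ b, ∑ j' ∈ b, (x j * conj (x j')) * (conj (A k j) * A k j')
        = ((‖x j‖ : ℂ)) ^ 2 := by
      intro j hj
      rw [Finset.sum_comm]
      have : ∀ j' ∈ b, ∑ k ∈ b, (x j * conj (x j')) * (conj (A k j) * A k j')
          = (x j * conj (x j')) * (if j = j' then 1 else 0) := by
        intro j' hj'
        rw [← Finset.mul_sum, hcol j hj j' hj']
      rw [Finset.sum_congr rfl this]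
      simp only [mul_ite, mul_one, mul_zero]
      rw [Finset.sum_ite_eq b j]
      simp only [hj, if_true]
      exact Complex.mul_conj' (x j)
    exact Finset.sum_congr rfl e2
  exact_mod_cast hC

end Fermat.Agent.LT.T7.H44
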