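import Mathlib
import Fermat.Agent.LT.H556.A0
import Fermat.Agent.LT.T5.Spec
import Fermat.Agent.LT.T7.H44.RebaseAbs

/-!
# Row LT, tower T7 -- REBASING a complete orthonormal sequence of cusp functions (helper44)

OFF-MAIN.  Imports Mathlib, A0, `T5/Spec.lean` (byte-identical copies) and `RebaseAbs`.
Complete proofs.

`isCuspONB_rebase44`: let `e` be a complete orthonormal sequence of cusp functions in the sense
of `T5.IsCuspONB` (zero vectors allowed), `B` a partition of `ℕ` into FINITE blocks and `A` a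
matrix which is unitary on every block (orthonormal rows), with trivial blocks at the zero
vectors.  Then `e' k = ∑_{j ∈ B k} A k j • e j` is again a complete orthonormal sequence
(`T5.IsCuspONB`), provided finite linear combinations of the `e j` are cusp functions.

USE (SpecUpC / SpecDownC of `T7/Level2.lean`): `e` = a joint eigenbasis of the tower T2 as a
sequence, blocks = the joint eigen-classes (finite multiplicity), `A` = the orthonormal basis of
the atoms lemma (`twistedTraceAtoms44` / `twistedTraceAtoms402`) in the coordinates of the block.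
The diagonal coefficients in the new sequence are absolutely summable by `T5.STFsigma`, which
gives the summability of the atoms.
-/

set_option autoImplicit false

open IsDedekindDomain NumberField MeasureTheory
open scoped ComplexConjugate

noncomputable section

namespace Fermat.Agent.LT.T7.H44

open Fermat.Agent.LT.H556.A0 Fermat.Agent.LT.T5

attribute [local instance] Fermat.Agent.LT.T5.instMeasurableSpaceG

variable {K : Type} [Field K] [NumberField K]

/-- The rebased sequence `e' k = ∑_{j ∈ B k} A k j • e j`. -/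
def rebase44 (B : ℕ → Finset ℕ) (A : ℕ → ℕ → ℂ) (e : ℕ → G K → ℂ) : ℕ → G K → ℂ :=
  fun k g => ∑ j ∈ B k, A k j * e j g

/-! ## 1. The pairing on continuous bounded functions -/

/-- Continuous bounded functions. -/
def IsNice44 (f : G K → ℂ) : Prop := Continuous f ∧ ∃ C : ℝ, ∀ g : G K, ‖f g‖ ≤ C

theorem nice_of_cusp44 {𝔫 : Ideal (𝓞 K)} {τ : G K → ℂ} {r : G K} {f : G K → ℂ}
    (h : IsCuspFn 𝔫 τ r f) : IsNice44 f := ⟨h.cont, h.bdd⟩

theorem integrableOn_mul_conj44 {μ : Measure (G K)} {F : Set (G K)} (hF : IsFrame μ F)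
    {e f : G K → ℂ} (he : IsNice44 e) (hf : IsNice44 f) :
    IntegrableOn (fun x => e x * conj (f x)) F μ := by
  have : BorelSpace (G K) := ⟨rfl⟩
  obtain ⟨C, hC⟩ := he.2
  obtain ⟨D, hD⟩ := hf.2
  have hcont : Continuous fun x => e x * conj (f x) :=
    he.1.mul (Complex.continuous_conj.comp hf.1)
  refine IntegrableOn.of_bound hF.finite hcont.aestronglyMeasurable (C * D) ?_
  refine Filter.Eventually.of_forall fun x => ?_
  rw [norm_mul, RCLike.norm_conj]
  exact mul_le_mul (hC x) (hD x) (norm_nonneg _) ((norm_nonneg _).trans (hC x))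

theorem isNice44_sum (s : Finset ℕ) (a : ℕ → ℂ) (e : ℕ → G K → ℂ)
    (he : ∀ j ∈ s, IsNice44 (e j)) : IsNice44 fun g => ∑ j ∈ s, a j * e j g := by
  classical
  induction s using Finset.induction_on with
  | empty =>
    refine ⟨by simpa using continuous_const, 0, fun g => by simp⟩
  | insert i s hi ih =>
    have h1 := he i (Finset.mem_insert_self i s)
    have h2 := ih fun j hj => he j (Finset.mem_insert_of_mem hj)
    obtain ⟨C, hC⟩ := h1.2
    obtain ⟨D, hD⟩ := h2.2
    refine ⟨?_, ‖a i‖ * C + D, fun g => ?_⟩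
    · simp only [Finset.sum_insert hi]
      exact (continuous_const.mul h1.1).add h2.1
    · simp only [Finset.sum_insert hi]
      refine (norm_add_le _ _).trans (add_le_add ?_ (hD g))
      rw [norm_mul]
      exact mul_le_mul_of_nonneg_left (hC g) (norm_nonneg _)

theorem innerD_sum_left44 {μ : Measure (G K)} {F : Set (G K)} (hF : IsFrame μ F)
    (s : Finset ℕ) (a : ℕ → ℂ) (e : ℕ → G K → ℂ) (he : ∀ j ∈ s, IsNice44 (e j))
    {f : G K → ℂ} (hf : IsNice44 f) :
    innerD μ F (fun g => ∑ j ∈ s, a j * e j g) f = ∑ j ∈ s, a j * innerD μ F (e j) f := by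
  unfold innerD
  have e1 : (fun x => (∑ j ∈ s, a j * e j x) * conj (f x))
      = fun x => ∑ j ∈ s, a j * (e j x * conj (f x)) := by
    funext x
    rw [Finset.sum_mul]
    exact Finset.sum_congr rfl fun j _ => by ring
  rw [e1, integral_finsetSum]
  · refine Finset.sum_congr rfl fun j _ => ?_
    exact integral_const_mul _ _
  · intro j hj
    exact (integrableOn_mul_conj44 hF (he j hj) hf).const_mul (a j)

theorem innerD_sum_right44 {μ : Measure (G K)} {F : Set (G K)} (hF : IsFrame μ F)
    (s : Finset ℕ) (a : ℕ → ℂ) (e : ℕ → G K → ℂ) (he : ∀ j ∈ s, IsNice44 (e j))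
    {f : G K → ℂ} (hf : IsNice44 f) :
    innerD μ F f (fun g => ∑ j ∈ s, a j * e j g)
      = ∑ j ∈ s, conj (a j) * innerD μ F f (e j) := by
  unfold innerD
  have e1 : (fun x => f x * conj (∑ j ∈ s, a j * e j x))
      = fun x => ∑ j ∈ s, conj (a j) * (f x * conj (e j x)) := by
    funext x
    rw [map_sum, Finset.mul_sum]
    refine Finset.sum_congr rfl fun j _ => ?_
    rw [map_mul]
    ring
  rw [e1, integral_finsetSum]
  · refine Finset.sum_congr rfl fun j _ => ?_
    exact integral_const_mul _ _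
  · intro j hj
    exact (integrableOn_mul_conj44 hF hf (he j hj)).const_mul (conj (a j))

/-! ## 2. The rebased sequence -/

/-- The hypotheses on the blocks and the matrix. -/
structure IsRebase44 (μ : Measure (G K)) (F : Set (G K)) (e : ℕ → G K → ℂ)
    (B : ℕ → Finset ℕ) (A : ℕ → ℕ → ℂ) : Prop where
  blocks : IsBlocks44 B
  /-- the rows of `A` are orthonormal on every block -/
  row : ∀ k, ∀ k' ∈ B k, ∑ j ∈ B k, A k j * conj (A k' j) = if k = k' then 1 else 0
  /-- the blocks at the zero vectors are trivial -/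
  zero : ∀ k, innerD μ F (e k) (e k) ≠ 1 → B k = {k} ∧ A k k = 1

variable {𝔫 : Ideal (𝓞 K)} {τ : G K → ℂ} {r : G K} {μ : Measure (G K)} {F : Set (G K)}
  {e : ℕ → G K → ℂ} {B : ℕ → Finset ℕ} {A : ℕ → ℕ → ℂ}

/-- In a block with a member of norm one every member has norm one. -/
theorem IsRebase44.norm_one (h : IsRebase44 μ F e B A) {k : ℕ}
    (hk : innerD μ F (e k) (e k) = 1) {j : ℕ} (hj : j ∈ B k) : innerD μ F (e j) (e j) = 1 := by
  by_contra hne
  have h1 := (h.zero j hne).1
  have h2 : k ∈ B j := h.blocks.mem_symm hj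
  rw [h1, Finset.mem_singleton] at h2
  rw [h2] at hk
  exact hne hk

/-- In a block with two members every member has norm one. -/
theorem IsRebase44.norm_one_of_ne (h : IsRebase44 μ F e B A) {k k' : ℕ} (hk' : k' ∈ B k)
    (hne : k ≠ k') {j : ℕ} (hj : j ∈ B k) : innerD μ F (e j) (e j) = 1 := by
  by_contra hj1
  have h1 := (h.zero j hj1).1
  have h2 : k ∈ B j := h.blocks.mem_symm hj
  have h3 : k' ∈ B j := by
    rw [h.blocks.eq k j hj]
    exact hk'
  rw [h1, Finset.mem_singleton] at h2 h3
  exact hne (h2.trans h3.symm)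

theorem innerD_rebase44 (hF : IsFrame μ F) (he : IsCuspONB 𝔫 τ r μ F e) (k k' : ℕ) :
    innerD μ F (rebase44 B A e k) (rebase44 B A e k')
      = ∑ j ∈ B k, ∑ j' ∈ B k', A k j * conj (A k' j') * innerD μ F (e j) (e j') := by
  have hn : ∀ j, IsNice44 (e j) := fun j => nice_of_cusp44 (he.cusp j)
  unfold rebase44
  rw [innerD_sum_left44 hF (B k) (A k) e (fun j _ => hn j)
    (isNice44_sum (B k') (A k') e fun j _ => hn j)]
  refine Finset.sum_congr rfl fun j _ => ?_
  rw [innerD_sum_right44 hF (B k') (A k') e (fun j _ => hn j) (hn j), Finset.mul_sum]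
  refine Finset.sum_congr rfl fun j' _ => ?_
  ring

/-- The pairing of two rebased members of the SAME block, all of whose members have norm
one. -/
theorem innerD_rebase_same44 (hF : IsFrame μ F) (he : IsCuspONB 𝔫 τ r μ F e)
    (h : IsRebase44 μ F e B A) {k k' : ℕ} (hk' : k' ∈ B k)
    (h1 : ∀ j ∈ B k, innerD μ F (e j) (e j) = 1) :
    innerD μ F (rebase44 B A e k) (rebase44 B A e k') = if k = k' then 1 else 0 := by
  classical
  rw [innerD_rebase44 hF he, h.blocks.eq k k' hk', ← h.row k k' hk']
  refine Finset.sum_congr rfl fun j hj => ?_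
  have : ∀ j' ∈ B k, A k j * conj (A k' j') * innerD μ F (e j) (e j')
      = if j = j' then A k j * conj (A k' j) else 0 := by
    intro j' _
    by_cases hjj : j = j'
    · subst hjj
      rw [if_pos rfl, h1 j hj, mul_one]
    · rw [if_neg hjj, he.orth j j' hjj, mul_zero]
  rw [Finset.sum_congr rfl this, Finset.sum_ite_eq (B k) j]
  simp only [hj, if_true]

/-- **REBASING**: the rebased sequence is a complete orthonormal sequence of cusp functions. -/
theorem isCuspONB_rebase44 (hF : IsFrame μ F) (he : IsCuspONB 𝔫 τ r μ F e)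
    (h : IsRebase44 μ F e B A)
    (hlin : ∀ (s : Finset ℕ) (a : ℕ → ℂ), IsCuspFn 𝔫 τ r (fun g => ∑ j ∈ s, a j * e j g)) :
    IsCuspONB 𝔫 τ r μ F (rebase44 B A e) where
  cusp := fun k => hlin (B k) (A k)
  orth := by
    classical
    intro k k' hkk
    by_cases hb : B k = B k'
    · have hk' : k' ∈ B k := hb ▸ h.blocks.self k'
      rw [innerD_rebase_same44 hF he h hk' fun j hj => h.norm_one_of_ne hk' hkk hj, if_neg hkk]
    · rw [innerD_rebase44 hF he]
      refine Finset.sum_eq_zero fun j hj => Finset.sum_eq_zero fun j' hj' => ?_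
      have hjj : j ≠ j' := by
        rintro rfl
        exact (Finset.disjoint_left.1 (h.blocks.disjoint hb)) hj hj'
      rw [he.orth j j' hjj, mul_zero]
  norm := by
    classical
    intro k
    by_cases hk : innerD μ F (e k) (e k) = 1
    · left
      rw [innerD_rebase_same44 hF he h (h.blocks.self k) fun j hj => h.norm_one hk hj,
        if_pos rfl]
    · right
      obtain ⟨hB, hA⟩ := h.zero k hk
      have hz : ∀ g, e k g = 0 := (he.norm k).resolve_left hk
      intro g
      simp only [rebase44, hB, Finset.sum_singleton, hz g, mul_zero]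
  complete := by
    classical
    intro f hf
    have hn : ∀ j, IsNice44 (e j) := fun j => nice_of_cusp44 (he.cusp j)
    have hpair : ∀ k, innerD μ F f (rebase44 B A e k)
        = ∑ j ∈ B k, conj (A k j) * innerD μ F f (e j) := fun k =>
      innerD_sum_right44 hF (B k) (A k) e (fun j _ => hn j) (nice_of_cusp44 hf)
    refine hasSum_of_block_sums44 h.blocks (fun k => by positivity) (fun k => by positivity)
      ?_ (he.complete f hf)
    intro k
    have hrow : ∀ i ∈ B k, ∀ i' ∈ B k,
        ∑ j ∈ B k, A i j * conj (A i' j) = if i = i' then 1 else 0 := by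
      intro i hi i' hi'
      have hi'' : i' ∈ B i := by
        rw [h.blocks.eq k i hi]
        exact hi'
      have := h.row i i' hi''
      rwa [h.blocks.eq k i hi] at this
    rw [← sum_normSq_unitary44 (B k) A hrow fun j => innerD μ F f (e j)]
    refine Finset.sum_congr rfl fun i hi => ?_
    rw [hpair i, h.blocks.eq k i hi]

/-! ## 3. Gluing the blocks, and the diagonal coefficients in the rebased sequence -/

/-- The hypotheses of the rebasing from one matrix for every block. -/
theorem isRebase44_of_blocks (hB : IsBlocks44 B) (Aof : Finset ℕ → ℕ → ℕ → ℂ)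
    (hrow : ∀ k, ∀ i ∈ B k, ∀ i' ∈ B k,
      ∑ j ∈ B k, Aof (B k) i j * conj (Aof (B k) i' j) = if i = i' then 1 else 0)
    (hzero : ∀ k, innerD μ F (e k) (e k) ≠ 1 → B k = {k} ∧ Aof (B k) k k = 1) :
    IsRebase44 μ F e B (fun k j => Aof (B k) k j) where
  blocks := hB
  row := by
    intro k k' hk'
    have := hrow k k (hB.self k) k' hk'
    simp only [hB.eq k k' hk']
    exact this
  zero := hzero

/-- The extension by zero of a matrix indexed by a finite block. -/
def extMat44 (b : Finset ℕ) (A : b → b → ℂ) : ℕ → ℕ → ℂ :=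
  fun k j => if h : k ∈ b ∧ j ∈ b then A ⟨k, h.1⟩ ⟨j, h.2⟩ else 0

theorem extMat44_apply (b : Finset ℕ) (A : b → b → ℂ) (k j : b) :
    extMat44 b A k j = A k j := by
  simp [extMat44, k.2, j.2]

theorem extMat44_row (b : Finset ℕ) (A : b → b → ℂ)
    (hA : ∀ k k' : b, ∑ j, A k j * conj (A k' j) = if k = k' then 1 else 0) :
    ∀ i ∈ b, ∀ i' ∈ b,
      ∑ j ∈ b, extMat44 b A i j * conj (extMat44 b A i' j) = if i = i' then 1 else 0 := by
  intro i hi i' hi'
  rw [← Finset.sum_coe_sort]
  have := hA ⟨i, hi⟩ ⟨i', hi'⟩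
  simp only [Subtype.mk.injEq] at this
  rw [← this]
  refine Finset.sum_congr rfl fun j _ => ?_
  rw [extMat44_apply b A ⟨i, hi⟩ j, extMat44_apply b A ⟨i', hi'⟩ j]

/-- `R(φ)` of a finite linear combination. -/
theorem rconv_sum44 (φ : G K → ℂ) (s : Finset ℕ) (a : ℕ → ℂ) (ψ : ℕ → G K → ℂ) (x : G K)
    (hint : ∀ j ∈ s, Integrable (fun y => φ y * ψ j (x * y)) μ) :
    Rconv μ φ (fun g => ∑ j ∈ s, a j * ψ j g) x = ∑ j ∈ s, a j * Rconv μ φ (ψ j) x := by
  unfold Rconv
  have e1 : (fun y => φ y * ∑ j ∈ s, a j * ψ j (x * y))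
      = fun y => ∑ j ∈ s, a j * (φ y * ψ j (x * y)) := by
    funext y
    rw [Finset.mul_sum]
    exact Finset.sum_congr rfl fun j _ => by ring
  rw [e1, integral_finsetSum]
  · exact Finset.sum_congr rfl fun j _ => integral_const_mul _ _
  · intro j hj
    exact (hint j hj).const_mul (a j)

/-- **The diagonal coefficients in the rebased sequence**: if `M j' j = ⟨R(φ) R(σ) e j, e j'⟩`
then `⟨R(φ) R(σ) e' k, e' k⟩ = ∑_{j, j' ∈ B k} A k j conj (A k j') M j' j`. -/
theorem diagCoeff_rebase44 (hF : IsFrame μ F) (he : IsCuspONB 𝔫 τ r μ F e)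
    (s : AdelicAut K) (φ : G K → ℂ) (k : ℕ)
    (hint : ∀ j ∈ B k, ∀ x, Integrable (fun y => φ y * Rsig s (e j) (x * y)) μ)
    (hR : ∀ j ∈ B k, IsNice44 (Rconv μ φ (Rsig s (e j)))) :
    diagCoeff s μ F φ (rebase44 B A e k)
      = ∑ j ∈ B k, ∑ j' ∈ B k,
          A k j * conj (A k j') * innerD μ F (Rconv μ φ (Rsig s (e j))) (e j') := by
  have hn : ∀ j, IsNice44 (e j) := fun j => nice_of_cusp44 (he.cusp j)
  unfold diagCoeff
  have e1 : Rsig s (rebase44 B A e k) = fun g => ∑ j ∈ B k, A k j * Rsig s (e j) g := rfl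
  have e2 : Rconv μ φ (Rsig s (rebase44 B A e k))
      = fun x => ∑ j ∈ B k, A k j * Rconv μ φ (Rsig s (e j)) x := by
    funext x
    rw [e1]
    exact rconv_sum44 φ (B k) (A k) (fun j => Rsig s (e j)) x fun j hj => hint j hj x
  rw [e2]
  have e3 : rebase44 B A e k = fun g => ∑ j ∈ B k, A k j * e j g := rfl
  rw [e3]
  rw [innerD_sum_left44 hF (B k) (A k) (fun j => Rconv μ φ (Rsig s (e j))) hR
    (isNice44_sum (B k) (A k) e fun j _ => hn j)]
  refine Finset.sum_congr rfl fun j hj => ?_
  show A k j * innerD μ F (Rconv μ φ (Rsig s (e j))) (fun g => ∑ j' ∈ B k, A k j' * e j' g) = _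
  rw [innerD_sum_right44 hF (B k) (A k) e (fun j _ => hn j) (hR j hj), Finset.mul_sum]
  refine Finset.sum_congr rfl fun j' _ => ?_
  ring

end Fermat.Agent.LT.T7.H44
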