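import Mathlib
import Fermat.Agent.LT.H556.A0
import Fermat.Agent.LT.T5.Spec
import Fermat.Agent.LT.T1.Closed
import Fermat.Agent.LT.T2.H510.Leaf04
import Fermat.Agent.LT.T7.H44.Rebase

/-!
# Row LT, tower T7, leaf `ChangeC561` (spare, helper44): the analytic inputs

OFF-MAIN.  ADDITIVE (new names only, all ending in `44`).  Vocabulary: A0, `T5/Spec.lean`; inputs:
the closed tower T1 (`T1.t1Out`: the topology of `GL₂(𝔸_K)`, the fundamental domain of `K` in
`𝔸_K`) and the linearity of the constant term (`isCuspidalFn_sum_h510`, helper510).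

* `continuous_onGinv44` : `σ⁻¹` is continuous on `GL₂(𝔸_K)`;
* `isCuspFn_lin44` : the cusp functions of `T5` are stable under finite linear combinations;
* `integrable_rconv44` : the integrand of `R(φ) f` is integrable (`φ` continuous with compact
  support, `f` continuous);
* `isNice_rconv44` : `R(φ) f` is continuous and bounded (`f` continuous and bounded).
-/

set_option autoImplicit false

open IsDedekindDomain NumberField MeasureTheory
open scoped ComplexConjugate

noncomputable section

namespace Fermat.Agent.LT.T7.H44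

open Fermat.Agent.LT.H556 Fermat.Agent.LT.H556.A0 Fermat.Agent.LT.T5

attribute [local instance] Fermat.Agent.LT.T5.instMeasurableSpaceG

variable {K : Type} [Field K] [NumberField K]

/-- `σ⁻¹` is continuous on `GL₂(𝔸_K)`. -/
theorem continuous_onGinv44 (s : AdelicAut K) : Continuous (s.onGinv : G K → G K) := by
  have h : Continuous ((RingHom.mapMatrix (s.σA.symm : Adl K →+* Adl K)).toMonoidHom :
      Matrix (Fin 2) (Fin 2) (Adl K) → Matrix (Fin 2) (Fin 2) (Adl K)) :=
    Continuous.matrix_map continuous_id s.continuous_symm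
  exact Continuous.units_map _ h

/-- `R(σ)` of a continuous bounded function is continuous and bounded. -/
theorem isNice_rsig44 (s : AdelicAut K) {f : G K → ℂ} (hf : IsNice44 f) :
    IsNice44 (Rsig s f) := by
  obtain ⟨C, hC⟩ := hf.2
  exact ⟨hf.1.comp (continuous_onGinv44 s), C, fun g => hC _⟩

/-- Finite linear combinations of automorphic functions. -/
theorem isAutomorphicFn_lin44 {𝔫 : Ideal (𝓞 K)} {τ : G K → ℂ} {r : G K} (e : ℕ → G K → ℂ)
    (s : Finset ℕ) (a : ℕ → ℂ) (he : ∀ j ∈ s, IsAutomorphicFn 𝔫 τ r (e j)) :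
    IsAutomorphicFn 𝔫 τ r (fun g => ∑ j ∈ s, a j * e j g) where
  left_inv := fun γ g => Finset.sum_congr rfl fun j hj => by rw [(he j hj).left_inv γ g]
  level_inv := fun u hu g => Finset.sum_congr rfl fun j hj => by rw [(he j hj).level_inv u hu g]
  arch_compact := fun w k hk g => by
    show ∑ j ∈ s, a j * e j (g * k) = τ k * ∑ j ∈ s, a j * e j g
    rw [Finset.mul_sum]
    refine Finset.sum_congr rfl fun j hj => ?_
    rw [(he j hj).arch_compact w k hk g]
    ring
  ray := fun g => Finset.sum_congr rfl fun j hj => by rw [(he j hj).ray g]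

/-- **The cusp functions are stable under finite linear combinations.** -/
theorem isCuspFn_lin44 {𝔫 : Ideal (𝓞 K)} {τ : G K → ℂ} {r : G K} (e : ℕ → G K → ℂ)
    (he : ∀ j, IsCuspFn 𝔫 τ r (e j)) (s : Finset ℕ) (a : ℕ → ℂ) :
    IsCuspFn 𝔫 τ r (fun g => ∑ j ∈ s, a j * e j g) where
  cont := continuous_finsetSum _ fun j _ => continuous_const.mul (he j).cont
  bdd := (isNice44_sum s a e fun j _ => nice_of_cusp44 (he j)).2
  aut := isAutomorphicFn_lin44 e s a fun j _ => (he j).aut
  cuspidal := by
    have h := Fermat.Agent.LT.T2.H510.isCuspidalFn_sum_h510 (Fermat.Agent.LT.T1.t1Out K)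
      (fun i : Fin s.card => a (s.equivFin.symm i)) (fun i => e (s.equivFin.symm i))
      (fun i => (he _).cont) (fun i => (he _).bdd) (fun i => (he _).cuspidal)
    have e1 : (fun g => ∑ j ∈ s, a j * e j g)
        = fun g => ∑ i : Fin s.card, a (s.equivFin.symm i) * e (s.equivFin.symm i) g := by
      funext g
      rw [← Finset.sum_coe_sort s (fun j => a j * e j g)]
      exact (Equiv.sum_comp s.equivFin.symm (fun j : s => a j * e j g)).symm
    rw [e1]
    exact h

/-- The integrand of `R(φ) f` is integrable. -/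
theorem integrable_rconv44 {μ : Measure (G K)} {F : Set (G K)} (hF : IsFrame μ F)
    {φ f : G K → ℂ} (hφ : Continuous φ) (hφs : HasCompactSupport φ) (hf : Continuous f)
    (x : G K) : Integrable (fun y => φ y * f (x * y)) μ := by
  have : BorelSpace (G K) := ⟨rfl⟩
  have := hF.haar
  have hcont : Continuous fun y => φ y * f (x * y) :=
    hφ.mul (hf.comp (continuous_const.mul continuous_id))
  exact hcont.integrable_of_hasCompactSupport (hφs.mul_right (f' := fun y => f (x * y)))

/-- **`R(φ) f` is continuous and bounded.** -/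
theorem isNice_rconv44 {μ : Measure (G K)} {F : Set (G K)} (hF : IsFrame μ F)
    {φ f : G K → ℂ} (hφ : Continuous φ) (hφs : HasCompactSupport φ) (hf : IsNice44 f) :
    IsNice44 (Rconv μ φ f) := by
  have : BorelSpace (G K) := ⟨rfl⟩
  have := hF.haar
  have hT1 := Fermat.Agent.LT.T1.t1Out K
  have : LocallyCompactSpace (G K) := hT1.locComp.2.1
  have : T2Space (G K) := hT1.locComp.2.2.1
  have : SecondCountableTopology (G K) := hT1.locComp.2.2.2
  obtain ⟨C, hC⟩ := hf.2
  refine ⟨?_, C * ∫ y, ‖φ y‖ ∂μ, fun x => ?_⟩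
  · have hu : Continuous (Function.uncurry fun (x : G K) (y : G K) => φ y * f (x * y)) :=
      (hφ.comp continuous_snd).mul (hf.1.comp (continuous_fst.mul continuous_snd))
    have h1 : Continuous fun x => ∫ y in tsupport φ, φ y * f (x * y) ∂μ :=
      continuous_parametric_integral_of_continuous hu hφs
    have h2 : Rconv μ φ f = fun x => ∫ y in tsupport φ, φ y * f (x * y) ∂μ := by
      funext x
      show ∫ y, φ y * f (x * y) ∂μ = _
      refine (setIntegral_eq_integral_of_forall_compl_eq_zero fun y hy => ?_).symm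
      rw [image_eq_zero_of_notMem_tsupport hy, zero_mul]
    rw [h2]
    exact h1
  · show ‖∫ y, φ y * f (x * y) ∂μ‖ ≤ _
    have hφi : Integrable φ μ := hφ.integrable_of_hasCompactSupport hφs
    calc ‖∫ y, φ y * f (x * y) ∂μ‖ ≤ ∫ y, ‖φ y * f (x * y)‖ ∂μ := norm_integral_le_integral_norm _
      _ ≤ ∫ y, C * ‖φ y‖ ∂μ := by
          refine integral_mono_of_nonneg (Filter.Eventually.of_forall fun y => norm_nonneg _)
            (hφi.norm.const_mul C) (Filter.Eventually.of_forall fun y => ?_)
          show ‖φ y * f (x * y)‖ ≤ C * ‖φ y‖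
          rw [norm_mul, mul_comm]
          exact mul_le_mul_of_nonneg_right (hC _) (norm_nonneg _)
      _ = C * ∫ y, ‖φ y‖ ∂μ := integral_const_mul _ _

end Fermat.Agent.LT.T7.H44
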