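import Mathlib
import Fermat.Agent.LT.T7.H144.WSpecCut
import Fermat.Agent.LT.T7.H281.TranslEig
import Fermat.Agent.LT.T7.H543.HGroup
import Fermat.Agent.LT.T7.H453.TranslInv
import Fermat.Agent.LT.T1.Closed
import Fermat.Agent.LT.T2.H333.Book

/-!
# Row LT, tower T7, leaf T7.L2.2.B1 / W3 = `IwTranslC144` (helper44): CLOSED

OFF-MAIN.  ADDITIVE (new names only, all ending in `44`).

    iwTranslC44 (K) : T7.H144W.IwTranslC144 K

VERBATIM against `T7/H144/WSpecCut.lean` (helper144@ab01b0acf, sha256 b4ddb868).  Assembly of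
closed leaves: `translEigC281` (helper281: a good translation preserves the eigenfunctions),
`hGroupC543` (helper543: the Iwahori elements form a group which normalises `U(𝔫)`),
`translInvC453` (helper453: the integral over the fundamental domain is invariant under right
translations), `T1.t1Out` (the adelic norm).
-/

set_option autoImplicit false

open AutomorphicForm IsDedekindDomain NumberField MeasureTheory
open scoped ComplexConjugate

noncomputable section

namespace Fermat.Agent.LT.T7.H44

open Fermat.Agent.LT.H556 Fermat.Agent.LT.H556.A0 Fermat.Agent.LT Fermat.Agent.LT.T7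

attribute [local instance] Fermat.Agent.LT.T5.instMeasurableSpaceG

variable {K : Type} [Field K] [NumberField K]

/-- An element which is trivial at every place is `1`. -/
theorem eq_one_of_triv44 {h : G K} (hI : ∀ w : InfinitePlace K, TrivAtInf w h)
    (hF : ∀ v : HeightOneSpectrum (𝓞 K), TrivAtFin v h) : h = 1 := by
  apply Units.ext
  rw [Units.val_one]
  apply T2.H333.adeleMatrix_ext333
  · intro w
    rw [(T2.H333.trivAtInf_iff333 w h).1 (hI w), Matrix.map_one _ (map_zero _) (map_one _)]
  · intro v
    rw [(T2.H333.trivAtFin_iff333 v h).1 (hF v), Matrix.map_one _ (map_zero _) (map_one _)]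

/-- **LEAF W3 = IW-TRANSL, closed.** -/
theorem iwTranslC44 (K : Type) [Field K] [NumberField K] : H144W.IwTranslC144 K := by
  classical
  intro 𝔫 _ R hR l o ho i hi1 hi2 hi3
  have hiw : H193.IsIwElt l o i := ⟨hi1, hi2, hi3⟩
  obtain ⟨-, hinv, -, -, -, -, hnorm⟩ := H543.hGroupC543 K 𝔫 l o
  have hiw' : H193.IsIwElt l o i⁻¹ := hinv i hiw
  refine ⟨?_, ?_, hiw'.1, hiw'.2.1, hiw'.2.2⟩
  · -- the eigenfunctions
    intro ψ C hψ
    have hgood : ∀ t ∈ ({i} : Finset (G K)), H281.IsGoodTransl281 𝔫 t := by
      intro t ht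
      rw [Finset.mem_singleton] at ht
      subst ht
      refine ⟨hi1, fun v hv => ?_⟩
      have hne : ∀ j < l, v ≠ o j := fun j hj h => hv (h ▸ ho j hj)
      exact ⟨H543.isIntegralAt_of_triv543 (hi2 v hne),
        H543.isIntegralAt_of_triv543 (hiw'.2.1 v hne)⟩
    have e : H281.translOp281 {i} 1 ψ = fun x => ψ (x * i) := by
      funext x
      show (1 : ℂ) * ∑ t ∈ ({i} : Finset (G K)), ψ (x * t) = ψ (x * i)
      rw [Finset.sum_singleton, one_mul]
    have h := H281.translEigC281 K 𝔫 R.r 0 o hR.ray {i} 1 hgood ψ C hψ ?_ ?_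
    · rw [e] at h
      exact h
    · -- right invariance under the level group
      rw [e]
      intro u hu x
      show ψ (x * u * i) = ψ (x * i)
      have h1 : x * u * i = x * i * (i⁻¹ * u * i) := by group
      rw [h1]
      exact hψ.inv.cusp.aut.level_inv _ (hnorm i u hiw hu) _
    · -- no Iwahori condition
      intro h hh1 hh2 _ x
      have : h = 1 := eq_one_of_triv44 hh1 fun v => hh2 v fun j hj => absurd hj (Nat.not_lt_zero j)
      rw [this, mul_one]
  · -- the inner product
    intro ψ χ hψ hχ
    have h := H453.translInvC453 K (T1.t1Out K).adNorm R hR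
      (fun x => ψ x * conj (χ x))
      (fun γ x => by
        show ψ (T5.ratG γ * x) * conj (χ (T5.ratG γ * x)) = ψ x * conj (χ x)
        rw [hψ.cusp.aut.left_inv γ x, hχ.cusp.aut.left_inv γ x])
      (fun x => by
        show ψ (x * R.r) * conj (χ (x * R.r)) = ψ x * conj (χ x)
        rw [hψ.cusp.aut.ray x, hχ.cusp.aut.ray x]) i
    exact h

end Fermat.Agent.LT.T7.H44
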