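import Mathlib
import Fermat.Agent.LT.T6.Spec
import Fermat.Agent.LT.T6.H698.ConvSoft
import Fermat.Agent.LT.T6.H8.Unimod
import Fermat.Agent.LT.T2.H555.CartanInf

/-!
# Row LT, tower T7 (helper44): THE GELFAND PAIR `(GL₂(ℂ), U(2))`

OFF-MAIN.  ADDITIVE (new names only, all ending in `44`).  Mathlib + closed assets
(`T2.H555.svd555`: singular value decomposition; `T6.H8.rightInv_GL2C8`: `GL₂(ℂ)` is unimodular;
`T6.H698`: soft properties of `T6.convInt`).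

* `biU_tr44`: a bi-`U(2)`-invariant function is invariant under the transposition;
* `map_trGL44`: every Haar measure of `GL₂(ℂ)` is invariant under the transposition;
* `convInt_comm44`: the convolution of bi-`U(2)`-invariant functions is commutative;
* `convInt_assoc44`: the convolution of continuous functions of compact support is associative.
-/

set_option autoImplicit false

open MeasureTheory
open scoped Pointwise Matrix

noncomputable section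

namespace Fermat.Agent.LT.T7.H44

open Fermat.Agent.LT

/-- `Φ` is bi-invariant under `U(2)` (the form of the clauses of `H893.ArchOk893`). -/
def IsBiU44 (Φ : GL (Fin 2) ℂ → ℂ) : Prop :=
  ∀ k₁ k₂ g : GL (Fin 2) ℂ,
    (k₁ : Matrix (Fin 2) (Fin 2) ℂ) * (k₁ : Matrix (Fin 2) (Fin 2) ℂ).conjTranspose = 1 →
    (k₂ : Matrix (Fin 2) (Fin 2) ℂ) * (k₂ : Matrix (Fin 2) (Fin 2) ℂ).conjTranspose = 1 →
    Φ (k₁ * g * k₂) = Φ g

/-- The transposition of `GL₂(ℂ)`. -/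
def trGL44 (g : GL (Fin 2) ℂ) : GL (Fin 2) ℂ where
  val := (g : Matrix (Fin 2) (Fin 2) ℂ).transpose
  inv := ((g⁻¹ : GL (Fin 2) ℂ) : Matrix (Fin 2) (Fin 2) ℂ).transpose
  val_inv := by
    rw [← Matrix.transpose_mul, ← Matrix.GeneralLinearGroup.coe_mul, inv_mul_cancel]
    simp
  inv_val := by
    rw [← Matrix.transpose_mul, ← Matrix.GeneralLinearGroup.coe_mul, mul_inv_cancel]
    simp

theorem coe_trGL44 (g : GL (Fin 2) ℂ) :
    ((trGL44 g : GL (Fin 2) ℂ) : Matrix (Fin 2) (Fin 2) ℂ)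
      = (g : Matrix (Fin 2) (Fin 2) ℂ).transpose := rfl

theorem trGL44_mul (a b : GL (Fin 2) ℂ) : trGL44 (a * b) = trGL44 b * trGL44 a := by
  apply Units.ext
  show ((a * b : GL (Fin 2) ℂ) : Matrix (Fin 2) (Fin 2) ℂ).transpose
    = (b : Matrix (Fin 2) (Fin 2) ℂ).transpose * (a : Matrix (Fin 2) (Fin 2) ℂ).transpose
  rw [Matrix.GeneralLinearGroup.coe_mul, Matrix.transpose_mul]

theorem trGL44_one : trGL44 (1 : GL (Fin 2) ℂ) = 1 := by
  apply Units.ext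
  show ((1 : GL (Fin 2) ℂ) : Matrix (Fin 2) (Fin 2) ℂ).transpose = 1
  simp

theorem trGL44_inv (a : GL (Fin 2) ℂ) : trGL44 a⁻¹ = (trGL44 a)⁻¹ := by
  apply eq_inv_of_mul_eq_one_left
  rw [← trGL44_mul, mul_inv_cancel, trGL44_one]

theorem trGL44_trGL44 (a : GL (Fin 2) ℂ) : trGL44 (trGL44 a) = a := by
  apply Units.ext
  show ((a : Matrix (Fin 2) (Fin 2) ℂ).transpose).transpose = _
  rw [Matrix.transpose_transpose]

theorem continuous_trGL44 : Continuous trGL44 := by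
  rw [Units.continuous_iff]
  constructor
  · exact (Units.continuous_val).matrix_transpose
  · have h : (fun g : GL (Fin 2) ℂ => (((trGL44 g)⁻¹ : GL (Fin 2) ℂ) : Matrix (Fin 2) (Fin 2) ℂ))
        = fun g => ((g⁻¹ : GL (Fin 2) ℂ) : Matrix (Fin 2) (Fin 2) ℂ).transpose := by
      funext g
      rw [← trGL44_inv]
      rfl
    rw [h]
    exact (Units.continuous_val.comp continuous_inv).matrix_transpose

/-- The unitary matrices as elements of `GL₂(ℂ)`. -/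
def unitGL44 (k : Matrix (Fin 2) (Fin 2) ℂ) (h : k * k.conjTranspose = 1) : GL (Fin 2) ℂ where
  val := k
  inv := k.conjTranspose
  val_inv := h
  inv_val := mul_eq_one_comm.1 h

theorem unitary_tr44 {k : Matrix (Fin 2) (Fin 2) ℂ} (h : k * k.conjTranspose = 1) :
    k.transpose * (k.transpose).conjTranspose = 1 := by
  have h' : k.conjTranspose * k = 1 := mul_eq_one_comm.1 h
  have e : (k.transpose).conjTranspose = (k.conjTranspose).transpose := by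
    ext i j
    simp [Matrix.conjTranspose_apply, Matrix.transpose_apply]
  rw [e, ← Matrix.transpose_mul, h', Matrix.transpose_one]

/-- **A bi-`U(2)`-invariant function is invariant under the transposition** (Cartan
decomposition). -/
theorem biU_tr44 {Φ : GL (Fin 2) ℂ → ℂ} (hΦ : IsBiU44 Φ) (g : GL (Fin 2) ℂ) :
    Φ (trGL44 g) = Φ g := by
  have hdet : (g : Matrix (Fin 2) (Fin 2) ℂ).det ≠ 0 := by
    have := (Matrix.isUnit_iff_isUnit_det _).1 g.isUnit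
    exact this.ne_zero
  obtain ⟨k₁, k₂, d, h1, h2, -, hg⟩ := Fermat.Agent.LT.T2.H555.svd555
    (g : Matrix (Fin 2) (Fin 2) ℂ) hdet
  set K₁ : GL (Fin 2) ℂ := unitGL44 k₁ h1 with hK₁
  set K₂ : GL (Fin 2) ℂ := unitGL44 k₂ h2 with hK₂
  set D : GL (Fin 2) ℂ := K₁⁻¹ * g * K₂⁻¹ with hD
  have hg' : g = K₁ * D * K₂ := by
    rw [hD]
    group
  have hDval : (D : Matrix (Fin 2) (Fin 2) ℂ) = Matrix.diagonal (fun i => ((d i : ℝ) : ℂ)) := by
    have e1 : (D : Matrix (Fin 2) (Fin 2) ℂ)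
        = k₁.conjTranspose * (g : Matrix (Fin 2) (Fin 2) ℂ) * k₂.conjTranspose := rfl
    rw [e1, hg]
    have a1 : k₁.conjTranspose * k₁ = 1 := mul_eq_one_comm.1 h1
    calc k₁.conjTranspose * (k₁ * Matrix.diagonal (fun i => ((d i : ℝ) : ℂ)) * k₂)
          * k₂.conjTranspose
        = (k₁.conjTranspose * k₁) * Matrix.diagonal (fun i => ((d i : ℝ) : ℂ))
            * (k₂ * k₂.conjTranspose) := by
          simp only [Matrix.mul_assoc]
      _ = Matrix.diagonal (fun i => ((d i : ℝ) : ℂ)) := by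
          rw [a1, h2, Matrix.one_mul, Matrix.mul_one]
  have hDt : trGL44 D = D := by
    apply Units.ext
    rw [coe_trGL44, hDval, Matrix.diagonal_transpose]
  have hu1 : ((trGL44 K₁ : GL (Fin 2) ℂ) : Matrix (Fin 2) (Fin 2) ℂ)
      * ((trGL44 K₁ : GL (Fin 2) ℂ) : Matrix (Fin 2) (Fin 2) ℂ).conjTranspose = 1 :=
    unitary_tr44 h1
  have hu2 : ((trGL44 K₂ : GL (Fin 2) ℂ) : Matrix (Fin 2) (Fin 2) ℂ)
      * ((trGL44 K₂ : GL (Fin 2) ℂ) : Matrix (Fin 2) (Fin 2) ℂ).conjTranspose = 1 :=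
    unitary_tr44 h2
  calc Φ (trGL44 g) = Φ (trGL44 K₂ * trGL44 D * trGL44 K₁) := by
        rw [hg', trGL44_mul, trGL44_mul, mul_assoc]
    _ = Φ (trGL44 K₂ * D * trGL44 K₁) := by rw [hDt]
    _ = Φ D := hΦ _ _ _ hu2 hu1
    _ = Φ (K₁ * D * K₂) := (hΦ K₁ K₂ D h1 h2).symm
    _ = Φ g := by rw [← hg']

/-! ## The Haar measure and the transposition -/

section Meas

variable [MeasurableSpace (GL (Fin 2) ℂ)] [BorelSpace (GL (Fin 2) ℂ)]

/-- The transposition as a homeomorphism. -/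
def trHomeo44 : GL (Fin 2) ℂ ≃ₜ GL (Fin 2) ℂ where
  toFun := trGL44
  invFun := trGL44
  left_inv := trGL44_trGL44
  right_inv := trGL44_trGL44
  continuous_toFun := continuous_trGL44
  continuous_invFun := continuous_trGL44

/-- The automorphism `g ↦ (gᵀ)⁻¹`. -/
def trInvEquiv44 : GL (Fin 2) ℂ ≃* GL (Fin 2) ℂ where
  toFun g := (trGL44 g)⁻¹
  invFun g := (trGL44 g)⁻¹
  left_inv g := by
    show (trGL44 (trGL44 g)⁻¹)⁻¹ = g
    rw [← trGL44_inv, inv_inv, trGL44_trGL44]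
  right_inv g := by
    show (trGL44 (trGL44 g)⁻¹)⁻¹ = g
    rw [← trGL44_inv, inv_inv, trGL44_trGL44]
  map_mul' a b := by
    show (trGL44 (a * b))⁻¹ = (trGL44 a)⁻¹ * (trGL44 b)⁻¹
    rw [trGL44_mul, mul_inv_rev]

theorem trInvEquiv44_apply (g : GL (Fin 2) ℂ) : trInvEquiv44 g = (trGL44 g)⁻¹ := rfl

theorem trInvEquiv44_invol (g : GL (Fin 2) ℂ) : trInvEquiv44 (trInvEquiv44 g) = g := by
  rw [trInvEquiv44_apply, trInvEquiv44_apply, ← trGL44_inv, inv_inv, trGL44_trGL44]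

theorem continuous_trInvEquiv44 : Continuous (trInvEquiv44 : GL (Fin 2) ℂ → GL (Fin 2) ℂ) :=
  continuous_inv.comp continuous_trGL44

theorem continuous_trInvEquiv44_symm :
    Continuous (trInvEquiv44.symm : GL (Fin 2) ℂ → GL (Fin 2) ℂ) :=
  continuous_inv.comp continuous_trGL44

open scoped NNReal ENNReal in
/-- Every Haar measure of `GL₂(ℂ)` is invariant under `g ↦ (gᵀ)⁻¹`. -/
theorem map_trInv44 (μ : Measure (GL (Fin 2) ℂ)) [μ.IsHaarMeasure] :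
    Measure.map (trInvEquiv44 : GL (Fin 2) ℂ → GL (Fin 2) ℂ) μ = μ := by
  have := Fermat.Agent.LT.T6.H8.locallyCompactSpace_GL2C8
  have := Fermat.Agent.LT.T6.H8.secondCountableTopology_GL2C8
  have hH : (Measure.map (trInvEquiv44 : GL (Fin 2) ℂ → GL (Fin 2) ℂ) μ).IsHaarMeasure :=
    trInvEquiv44.isHaarMeasure_map μ continuous_trInvEquiv44 continuous_trInvEquiv44_symm
  set ν : Measure (GL (Fin 2) ℂ) := Measure.map (trInvEquiv44 : GL (Fin 2) ℂ → GL (Fin 2) ℂ) μ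
    with hν
  let c : ℝ≥0 := Measure.haarScalarFactor ν μ
  have hc : ν = c • μ := Measure.isMulLeftInvariant_eq_smul ν μ
  have hm : Measurable (trInvEquiv44 : GL (Fin 2) ℂ → GL (Fin 2) ℂ) :=
    continuous_trInvEquiv44.measurable
  have h2 : Measure.map (trInvEquiv44 : GL (Fin 2) ℂ → GL (Fin 2) ℂ) ν = (c * c) • μ := by
    rw [hc, Measure.map_smul, ← hν, hc, smul_smul]
  have μeq : μ = (c * c) • μ := by
    rw [hν, Measure.map_map hm hm] at h2
    have e : ((trInvEquiv44 : GL (Fin 2) ℂ → GL (Fin 2) ℂ) ∘ (trInvEquiv44 : GL (Fin 2) ℂ → _))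
        = id := funext fun g => trInvEquiv44_invol g
    rw [e, Measure.map_id] at h2
    exact h2
  have Kc : TopologicalSpace.PositiveCompacts (GL (Fin 2) ℂ) := Classical.arbitrary _
  have h3 : ((c * c : ℝ≥0) : ℝ≥0∞) * μ Kc = 1 * μ Kc := by
    conv_rhs => rw [μeq]
    simp [Measure.smul_apply, ENNReal.smul_def]
  have h4 : ((c * c : ℝ≥0) : ℝ≥0∞) = 1 :=
    (ENNReal.mul_left_inj (Measure.measure_pos_of_nonempty_interior _ Kc.interior_nonempty).ne'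
      Kc.isCompact.measure_lt_top.ne).1 h3
  have h5 : c * c = 1 := by exact_mod_cast h4
  have h6 : c = 1 := by
    have h7 : (c : ℝ) * (c : ℝ) = 1 := by exact_mod_cast h5
    rcases mul_self_eq_one_iff.1 h7 with h | h
    · exact_mod_cast h
    · exfalso
      have := c.coe_nonneg
      rw [h] at this
      linarith
  rw [hc, h6, one_smul]

/-- Every Haar measure of `GL₂(ℂ)` is invariant under the transposition. -/
theorem map_trGL44 (μ : Measure (GL (Fin 2) ℂ)) [μ.IsHaarMeasure] :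
    Measure.map trGL44 μ = μ := by
  have h1 := map_trInv44 μ
  have h2 := (Fermat.Agent.LT.T6.H8.rightInv_GL2C8 μ).2
  have e : trGL44 = (fun x : GL (Fin 2) ℂ => x⁻¹) ∘ (trInvEquiv44 : GL (Fin 2) ℂ → _) := by
    funext g
    show trGL44 g = ((trGL44 g)⁻¹)⁻¹
    rw [inv_inv]
  rw [e, ← Measure.map_map continuous_inv.measurable continuous_trInvEquiv44.measurable, h1, h2]

/-- Change of variables: the transposition. -/
theorem integral_comp_trGL44 (μ : Measure (GL (Fin 2) ℂ)) [μ.IsHaarMeasure]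
    (f : GL (Fin 2) ℂ → ℂ) : ∫ h, f (trGL44 h) ∂μ = ∫ y, f y ∂μ := by
  have hmp : MeasurePreserving (trHomeo44.toMeasurableEquiv) μ μ :=
    ⟨trHomeo44.toMeasurableEquiv.measurable, map_trGL44 μ⟩
  exact hmp.integral_comp' f

/-- Change of variables: `u ↦ u⁻¹ g`. -/
theorem integral_comp_inv_mul44 (μ : Measure (GL (Fin 2) ℂ)) [μ.IsHaarMeasure]
    (f : GL (Fin 2) ℂ → ℂ) (g : GL (Fin 2) ℂ) : ∫ u, f (u⁻¹ * g) ∂μ = ∫ y, f y ∂μ := by
  obtain ⟨hr, hi⟩ := Fermat.Agent.LT.T6.H8.rightInv_GL2C8 μ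
  have : μ.IsMulRightInvariant := ⟨hr⟩
  have : μ.IsInvInvariant := ⟨hi⟩
  calc ∫ u, f (u⁻¹ * g) ∂μ = ∫ u, (fun y => f (y * g)) u⁻¹ ∂μ := rfl
    _ = ∫ y, f (y * g) ∂μ := integral_inv_eq_self (fun y => f (y * g)) μ
    _ = ∫ y, f y ∂μ := integral_mul_right_eq_self f g

/-- The convolution of bi-`U(2)`-invariant functions is bi-`U(2)`-invariant. -/
theorem isBiU_convInt44 (μ : Measure (GL (Fin 2) ℂ)) [μ.IsHaarMeasure]
    {Φ Ψ : GL (Fin 2) ℂ → ℂ} (hΦ : IsBiU44 Φ) (hΨ : IsBiU44 Ψ) :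
    IsBiU44 (T6.convInt μ Φ Ψ) := by
  intro k₁ k₂ g h1 h2
  have hone : ((1 : GL (Fin 2) ℂ) : Matrix (Fin 2) (Fin 2) ℂ)
      * ((1 : GL (Fin 2) ℂ) : Matrix (Fin 2) (Fin 2) ℂ).conjTranspose = 1 := by simp
  show ∫ h, Φ h * Ψ (h⁻¹ * (k₁ * g * k₂)) ∂μ = ∫ h, Φ h * Ψ (h⁻¹ * g) ∂μ
  have e1 : ∫ h, Φ h * Ψ (h⁻¹ * (k₁ * g * k₂)) ∂μ
      = ∫ h, (fun y => Φ y * Ψ (y⁻¹ * (k₁ * g * k₂))) (k₁ * h) ∂μ :=
    (integral_mul_left_eq_self (fun y => Φ y * Ψ (y⁻¹ * (k₁ * g * k₂))) k₁).symm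
  rw [e1]
  refine integral_congr_ae (Filter.Eventually.of_forall fun h => ?_)
  show Φ (k₁ * h) * Ψ ((k₁ * h)⁻¹ * (k₁ * g * k₂)) = Φ h * Ψ (h⁻¹ * g)
  have a1 : Φ (k₁ * h) = Φ h := by
    have := hΦ k₁ 1 h h1 hone
    rwa [mul_one] at this
  have a2 : (k₁ * h)⁻¹ * (k₁ * g * k₂) = 1 * (h⁻¹ * g) * k₂ := by group
  rw [a1, a2, hΨ 1 k₂ (h⁻¹ * g) hone h2]

/-- **THE GELFAND PAIR `(GL₂(ℂ), U(2))`**: the convolution of bi-`U(2)`-invariant functions is
commutative (Gelfand's trick with the transposition). -/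
theorem convInt_comm44 (μ : Measure (GL (Fin 2) ℂ)) [μ.IsHaarMeasure]
    {Φ Ψ : GL (Fin 2) ℂ → ℂ} (hΦ : IsBiU44 Φ) (hΨ : IsBiU44 Ψ) (g : GL (Fin 2) ℂ) :
    T6.convInt μ Φ Ψ g = T6.convInt μ Ψ Φ g := by
  have hB := biU_tr44 (isBiU_convInt44 μ hΦ hΨ) g
  rw [← hB]
  show ∫ h, Φ h * Ψ (h⁻¹ * trGL44 g) ∂μ = ∫ u, Ψ u * Φ (u⁻¹ * g) ∂μ
  have e1 : ∀ h : GL (Fin 2) ℂ, Φ h * Ψ (h⁻¹ * trGL44 g)
      = (fun y => Φ y * Ψ (g * y⁻¹)) (trGL44 h) := by
    intro h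
    show Φ h * Ψ (h⁻¹ * trGL44 g) = Φ (trGL44 h) * Ψ (g * (trGL44 h)⁻¹)
    rw [biU_tr44 hΦ h, ← biU_tr44 hΨ (h⁻¹ * trGL44 g), trGL44_mul, trGL44_trGL44, trGL44_inv]
  have e2 : ∀ u : GL (Fin 2) ℂ, Ψ u * Φ (u⁻¹ * g)
      = (fun y => Φ y * Ψ (g * y⁻¹)) (u⁻¹ * g) := by
    intro u
    show Ψ u * Φ (u⁻¹ * g) = Φ (u⁻¹ * g) * Ψ (g * (u⁻¹ * g)⁻¹)
    have : g * (u⁻¹ * g)⁻¹ = u := by group
    rw [this, mul_comm]
  simp only [e1, e2]
  rw [integral_comp_trGL44 μ (fun y => Φ y * Ψ (g * y⁻¹)),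
    integral_comp_inv_mul44 μ (fun y => Φ y * Ψ (g * y⁻¹)) g]

/-- **The convolution of continuous functions of compact support is associative** (Fubini). -/
theorem convInt_assoc44 (μ : Measure (GL (Fin 2) ℂ)) [μ.IsHaarMeasure]
    {X Y Z : GL (Fin 2) ℂ → ℂ} (hX : Continuous X) (hXs : HasCompactSupport X)
    (hY : Continuous Y) (hYs : HasCompactSupport Y) (hZ : Continuous Z) (g : GL (Fin 2) ℂ) :
    T6.convInt μ (T6.convInt μ X Y) Z g = T6.convInt μ X (T6.convInt μ Y Z) g := by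
  have := Fermat.Agent.LT.T6.H8.locallyCompactSpace_GL2C8
  have := Fermat.Agent.LT.T6.H8.secondCountableTopology_GL2C8
  show ∫ k, (∫ h, X h * Y (h⁻¹ * k) ∂μ) * Z (k⁻¹ * g) ∂μ
    = ∫ h, X h * (∫ u, Y u * Z (u⁻¹ * (h⁻¹ * g)) ∂μ) ∂μ
  have hL : ∀ k : GL (Fin 2) ℂ, (∫ h, X h * Y (h⁻¹ * k) ∂μ) * Z (k⁻¹ * g)
      = ∫ h, X h * Y (h⁻¹ * k) * Z (k⁻¹ * g) ∂μ := fun k =>
    (integral_mul_const (Z (k⁻¹ * g)) (fun h => X h * Y (h⁻¹ * k))).symm
  have hR : ∀ h : GL (Fin 2) ℂ, X h * (∫ u, Y u * Z (u⁻¹ * (h⁻¹ * g)) ∂μ)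
      = ∫ k, X h * Y (h⁻¹ * k) * Z (k⁻¹ * g) ∂μ := by
    intro h
    rw [← integral_const_mul]
    have e := integral_mul_left_eq_self (μ := μ)
      (fun u => X h * (Y u * Z (u⁻¹ * (h⁻¹ * g)))) h⁻¹
    rw [← e]
    refine integral_congr_ae (Filter.Eventually.of_forall fun k => ?_)
    show X h * (Y (h⁻¹ * k) * Z ((h⁻¹ * k)⁻¹ * (h⁻¹ * g))) = X h * Y (h⁻¹ * k) * Z (k⁻¹ * g)
    have e' : (h⁻¹ * k)⁻¹ * (h⁻¹ * g) = k⁻¹ * g := by group
    rw [e', mul_assoc]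
  simp only [hL, hR]
  have hcont : Continuous (Function.uncurry fun (k h : GL (Fin 2) ℂ) =>
      X h * Y (h⁻¹ * k) * Z (k⁻¹ * g)) := by
    refine ((hX.comp continuous_snd).mul (hY.comp ?_)).mul (hZ.comp ?_)
    · exact (continuous_inv.comp continuous_snd).mul continuous_fst
    · exact (continuous_inv.comp continuous_fst).mul continuous_const
  have hcs : HasCompactSupport (Function.uncurry fun (k h : GL (Fin 2) ℂ) =>
      X h * Y (h⁻¹ * k) * Z (k⁻¹ * g)) := by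
    have hK : IsCompact (tsupport X * tsupport Y) := IsCompact.mul hXs hYs
    refine HasCompactSupport.intro (hK.prod hXs) fun p hp => ?_
    show X p.2 * Y (p.2⁻¹ * p.1) * Z (p.1⁻¹ * g) = 0
    by_contra h0
    have h1 : X p.2 ≠ 0 := fun h => h0 (by rw [h, zero_mul, zero_mul])
    have h2 : Y (p.2⁻¹ * p.1) ≠ 0 := fun h => h0 (by rw [h, mul_zero, zero_mul])
    apply hp
    refine ⟨Set.mem_mul.2 ⟨p.2, subset_tsupport _ h1, p.2⁻¹ * p.1, subset_tsupport _ h2, ?_⟩,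
      subset_tsupport _ h1⟩
    group
  exact integral_integral_swap (hcont.integrable_of_hasCompactSupport hcs)

end Meas

end Fermat.Agent.LT.T7.H44

end
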