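import Mathlib
import Fermat.Agent.LT.T7.P51.ProdMtSpec
import Fermat.Agent.LT.T7.H44.ArchComm

/-!
# Row LT, tower T7, leaf P.L7 = `P51.ArchProdC51` (helper44): CLOSED

OFF-MAIN.  ADDITIVE (new names only, all ending in `44`).

    archProdC44 (K K') : T7.P51.ArchProdC51 K K'

VERBATIM against `T7/P51/ProdMtSpec.lean` (helper51@818b57489, sha256 4b4a6c6c).

Proof.  `(GL₂(ℂ), U(2))` is a Gelfand pair (`convInt_comm44`, `ArchComm.lean`: Gelfand's trick
with the transposition; Cartan decomposition `svd555` of helper555, unimodularity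
`rightInv_GL2C8` of helper8) and the convolution is associative (`convInt_assoc44`), so
`(A₀ ⋆ ⋯ ⋆ A_n) ⋆ (B₀ ⋆ ⋯ ⋆ B_n) = (A₀ ⋆ B₀) ⋆ ⋯ ⋆ (A_n ⋆ B_n)` for continuous bi-`U(2)`-invariant
functions of compact support (`convL_mul44`).
-/

set_option autoImplicit false

open AutomorphicForm IsDedekindDomain NumberField MeasureTheory
open scoped ComplexConjugate

noncomputable section

namespace Fermat.Agent.LT.T7.H44

open Fermat.Agent.LT.H556 Fermat.Agent.LT.H556.A0 Fermat.Agent.LT Fermat.Agent.LT.T7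
open Fermat.Agent.LT.T7.H305 Fermat.Agent.LT.T7.H893

/-- Continuous, of compact support, bi-invariant under `U(2)`. -/
def IsGoodC44 (Φ : GL (Fin 2) ℂ → ℂ) : Prop :=
  Continuous Φ ∧ HasCompactSupport Φ ∧ IsBiU44 Φ

section Chain

variable (μc : @Measure (GL (Fin 2) ℂ) (borel _))

theorem convL305_zero44 (Φ : ℕ → GL (Fin 2) ℂ → ℂ) : convL305 μc Φ 0 = Φ 0 := rfl

theorem convL305_succ44 (Φ : ℕ → GL (Fin 2) ℂ → ℂ) (j : ℕ) :
    convL305 μc Φ (j + 1) = @T6.convInt _ _ (borel _) μc (convL305 μc Φ j) (Φ (j + 1)) := rfl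

variable (hμ : @Measure.IsHaarMeasure _ _ _ (borel _) μc)
include hμ

theorem isGoodC_convInt44 {X Y : GL (Fin 2) ℂ → ℂ} (hX : IsGoodC44 X) (hY : IsGoodC44 Y) :
    IsGoodC44 (@T6.convInt _ _ (borel _) μc X Y) := by
  let _ : MeasurableSpace (GL (Fin 2) ℂ) := borel _
  have : BorelSpace (GL (Fin 2) ℂ) := ⟨rfl⟩
  have := hμ
  have := Fermat.Agent.LT.T6.H8.locallyCompactSpace_GL2C8
  have := Fermat.Agent.LT.T6.H8.secondCountableTopology_GL2C8
  exact ⟨Fermat.Agent.LT.T6.H698.continuous_convInt698 μc hX.1 hX.2.1 hY.1,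
    Fermat.Agent.LT.T6.H698.hasCompactSupport_convInt698 μc hX.2.1 hY.2.1,
    isBiU_convInt44 μc hX.2.2 hY.2.2⟩

theorem isGoodC_convL44 {A : ℕ → GL (Fin 2) ℂ → ℂ} (hA : ∀ j, IsGoodC44 (A j)) (n : ℕ) :
    IsGoodC44 (convL305 μc A n) := by
  induction n with
  | zero => exact hA 0
  | succ n ih =>
    rw [convL305_succ44]
    exact isGoodC_convInt44 μc hμ ih (hA (n + 1))

/-- `(X ⋆ Y) ⋆ (Z ⋆ W) = (X ⋆ Z) ⋆ (Y ⋆ W)`. -/
theorem convInt_interchange44 {X Y Z W : GL (Fin 2) ℂ → ℂ} (hX : IsGoodC44 X)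
    (hY : IsGoodC44 Y) (hZ : IsGoodC44 Z) (hW : IsGoodC44 W) :
    @T6.convInt _ _ (borel _) μc (@T6.convInt _ _ (borel _) μc X Y)
        (@T6.convInt _ _ (borel _) μc Z W)
      = @T6.convInt _ _ (borel _) μc (@T6.convInt _ _ (borel _) μc X Z)
        (@T6.convInt _ _ (borel _) μc Y W) := by
  let _ : MeasurableSpace (GL (Fin 2) ℂ) := borel _
  have : BorelSpace (GL (Fin 2) ℂ) := ⟨rfl⟩
  have := hμ
  have hYZ : T6.convInt μc Y Z = T6.convInt μc Z Y :=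
    funext fun g => convInt_comm44 μc hY.2.2 hZ.2.2 g
  have assoc : ∀ {P Q R : GL (Fin 2) ℂ → ℂ}, IsGoodC44 P → IsGoodC44 Q → IsGoodC44 R →
      T6.convInt μc (T6.convInt μc P Q) R = T6.convInt μc P (T6.convInt μc Q R) :=
    fun hP hQ hR => funext fun g => convInt_assoc44 μc hP.1 hP.2.1 hQ.1 hQ.2.1 hR.1 g
  have hZW := isGoodC_convInt44 μc hμ hZ hW
  have hYW := isGoodC_convInt44 μc hμ hY hW
  calc T6.convInt μc (T6.convInt μc X Y) (T6.convInt μc Z W)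
      = T6.convInt μc X (T6.convInt μc Y (T6.convInt μc Z W)) := assoc hX hY hZW
    _ = T6.convInt μc X (T6.convInt μc (T6.convInt μc Y Z) W) := by rw [assoc hY hZ hW]
    _ = T6.convInt μc X (T6.convInt μc (T6.convInt μc Z Y) W) := by rw [hYZ]
    _ = T6.convInt μc X (T6.convInt μc Z (T6.convInt μc Y W)) := by rw [assoc hZ hY hW]
    _ = T6.convInt μc (T6.convInt μc X Z) (T6.convInt μc Y W) := (assoc hX hZ hYW).symm

/-- **The product of the convolution products is the convolution product of the products.** -/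
theorem convL_mul44 {A B : ℕ → GL (Fin 2) ℂ → ℂ} (hA : ∀ j, IsGoodC44 (A j))
    (hB : ∀ j, IsGoodC44 (B j)) (n : ℕ) :
    @T6.convInt _ _ (borel _) μc (convL305 μc A n) (convL305 μc B n)
      = convL305 μc (fun j => @T6.convInt _ _ (borel _) μc (A j) (B j)) n := by
  induction n with
  | zero => rfl
  | succ n ih =>
    rw [convL305_succ44, convL305_succ44, convL305_succ44,
      convInt_interchange44 μc hμ (isGoodC_convL44 μc hμ hA n) (hA (n + 1))
        (isGoodC_convL44 μc hμ hB n) (hB (n + 1)), ih]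

end Chain

section Leaf

variable (K K' : Type) [Field K] [NumberField K] [Field K'] [NumberField K'] [Algebra K K']

/-- **LEAF P.L7 = ARCH-PROD, VERBATIM.** -/
theorem archProdC44 : P51.ArchProdC51 K K' := by
  intro ℓ Φ B g 𝔫 μc T₀ n n₀ m H' z' H z t k j T φ₀ Φ' f₀ F hLoc
  obtain ⟨hctx, -, -, hprod⟩ := hLoc
  obtain ⟨T₁, T₂, φ₁, Φ₁, f₁, F₁, φ₂, Φ₂, f₂, F₂, -, -, -, hA, hB, -, -, -, -, -, hU, hD⟩ :=
    hprod
  obtain ⟨-, -, -, hA1, hA2, -⟩ := hA
  obtain ⟨-, -, -, -, -, hB1, hB2, -⟩ := hB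
  intro v w hw hinj
  have hμ := hctx.haar
  have gA : ∀ j : ℕ, IsGoodC44 (Φ₁ (w j)) := fun j =>
    ⟨(hA1.arch_up (w j)).1, (hA1.arch_up (w j)).2.1, fun k₁ k₂ x h1 h2 => hA2 (w j) k₁ k₂ x h1 h2⟩
  have gB : ∀ j : ℕ, IsGoodC44 (Φ₂ (w j)) := fun j =>
    ⟨(hB1.arch_up (w j)).1, (hB1.arch_up (w j)).2.1, fun k₁ k₂ x h1 h2 => hB2 (w j) k₁ k₂ x h1 h2⟩
  have e : (fun j => Φ' (w j))
      = fun j => @T6.convInt _ _ (borel _) μc (Φ₁ (w j)) (Φ₂ (w j)) :=
    funext fun j => hU (w j)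
  rw [hD v, hA1.arch v w hw hinj, hB1.arch v w hw hinj, e]
  exact convL_mul44 μc hμ gA gB _

end Leaf

end Fermat.Agent.LT.T7.H44

end
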